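import Fermat.Agent.S18.Sq05.Spec

/-!
# S18 / squad S18/S05, piece FF.1 (DISC) — helper182 (extra independent owner)

`disc : DiscStatement`: a valuation subring `V` of a finite extension `F/E` whose restriction
`V ∩ E` is a principal ideal ring is a principal ideal ring.  Characteristic-free, no separability.

Proof.  Let `n = [F:E]`, `val = V.valuation`.  For `x ∈ Fˣ` the minimal polynomial gives a
vanishing sum `∑ cᵢ xⁱ = 0` of nonzero terms; the maximal valuation is attained twice, so
`val x ^ d = val e` for some `1 ≤ d ≤ n`, `e ∈ Eˣ`.  As `V ∩ E` is a field or a DVR with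
uniformizer `π`, `val e` is a power of `γ := val π` (`γ := 1` in the field case).  Hence
`val x ^ n! = γ ^ k`, `k ∈ ℕ`, for every nonzero `x ∈ V`; an ideal is generated by an element with
minimal `k`.
-/

set_option autoImplicit false

noncomputable section

namespace Fermat.Agent.S18.H182

open Polynomial

section Key

variable {F : Type} [Field F] (V : ValuationSubring F)

/-- If the `N`-th powers of the valuations of the nonzero elements of `V` are natural powers of a
fixed `γ ≤ 1`, then `V` is a principal ideal ring. -/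
theorem isPrincipalIdealRing_of_pow_eq (γ : V.ValueGroup) (hγ : γ ≤ 1) (N : ℕ) (hN : N ≠ 0)
    (h : ∀ x : F, x ∈ V → x ≠ 0 → ∃ k : ℕ, V.valuation x ^ N = γ ^ k) :
    IsPrincipalIdealRing V := by
  classical
  refine ⟨fun I => ?_⟩
  by_cases hI : I = ⊥
  · rw [hI]
    exact ⟨⟨0, by simp⟩⟩
  have hex : ∃ k : ℕ, ∃ x : V, x ∈ I ∧ x ≠ 0 ∧ V.valuation (x : F) ^ N = γ ^ k := by
    obtain ⟨x, hxI, hx0⟩ := Submodule.exists_mem_ne_zero_of_ne_bot hI
    have hx0' : (x : F) ≠ 0 := fun h0 => hx0 (Subtype.ext h0)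
    obtain ⟨k, hk⟩ := h x x.2 hx0'
    exact ⟨k, x, hxI, hx0, hk⟩
  obtain ⟨x₀, hx₀I, hx₀0, hk₀⟩ := Nat.find_spec hex
  have hx₀F : (x₀ : F) ≠ 0 := fun h0 => hx₀0 (Subtype.ext h0)
  have hv₀ : V.valuation (x₀ : F) ≠ 0 := (Valuation.ne_zero_iff _).mpr hx₀F
  refine ⟨⟨x₀, ?_⟩⟩
  apply le_antisymm
  · intro y hyI
    rw [Submodule.mem_span_singleton]
    by_cases hy0 : y = 0
    · exact ⟨0, by simp [hy0]⟩
    have hyF : (y : F) ≠ 0 := fun h0 => hy0 (Subtype.ext h0)
    obtain ⟨k, hk⟩ := h y y.2 hyF
    have hkk : Nat.find hex ≤ k := Nat.find_min' hex ⟨y, hyI, hy0, hk⟩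
    have hpow : V.valuation (y : F) ^ N ≤ V.valuation (x₀ : F) ^ N := by
      rw [hk, hk₀]
      exact pow_le_pow_of_le_one zero_le hγ hkk
    have hle : V.valuation (y : F) ≤ V.valuation (x₀ : F) := by
      by_contra hcon
      have hlt : V.valuation (x₀ : F) < V.valuation (y : F) := not_le.mp hcon
      have := pow_lt_pow_left₀ hlt zero_le hN
      exact absurd hpow (not_le.mpr this)
    have hq : (y : F) / (x₀ : F) ∈ V := by
      rw [← V.valuation_le_one_iff, map_div₀]
      exact (div_le_one₀ (zero_lt_iff.mpr hv₀)).mpr hle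
    refine ⟨⟨_, hq⟩, Subtype.ext ?_⟩
    show (y : F) / (x₀ : F) * (x₀ : F) = y
    field_simp
  · rw [Submodule.span_singleton_le_iff_mem]
    exact hx₀I

end Key

section Dep

variable {E F : Type} [Field E] [Field F] [Algebra E F] [FiniteDimensional E F]
variable (V : ValuationSubring F)

/-- In a vanishing finite sum of nonzero terms the maximal valuation is attained twice. -/
theorem exists_ne_val_eq_of_sum_eq_zero {ι : Type} [DecidableEq ι] (s : Finset ι) (t : ι → F)
    (hs : s.Nonempty) (ht : ∀ i ∈ s, t i ≠ 0) (hsum : ∑ i ∈ s, t i = 0) :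
    ∃ i ∈ s, ∃ j ∈ s, i ≠ j ∧ V.valuation (t i) = V.valuation (t j) := by
  obtain ⟨i₀, hi₀, hmax⟩ := Finset.exists_max_image s (fun i => V.valuation (t i)) hs
  have hv₀ : V.valuation (t i₀) ≠ 0 := (Valuation.ne_zero_iff _).mpr (ht i₀ hi₀)
  by_contra hcon
  have hlt : ∀ j ∈ s.erase i₀, V.valuation (t j) < V.valuation (t i₀) := by
    intro j hj
    have hjs := Finset.mem_of_mem_erase hj
    have hne := Finset.ne_of_mem_erase hj
    rcases (hmax j hjs).lt_or_eq with h | h
    · exact h
    · exact absurd ⟨i₀, hi₀, j, hjs, fun h' => hne h'.symm, h.symm⟩ hcon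
  have hsum' : t i₀ = -∑ j ∈ s.erase i₀, t j := by
    rw [← Finset.add_sum_erase s t hi₀] at hsum
    exact eq_neg_of_add_eq_zero_left hsum
  have h1 : V.valuation (∑ j ∈ s.erase i₀, t j) < V.valuation (t i₀) :=
    Valuation.map_sum_lt _ hv₀ hlt
  rw [hsum', Valuation.map_neg] at h1
  exact lt_irrefl _ h1

/-- For `x ∈ Fˣ` some power `x ^ d`, `1 ≤ d ≤ [F:E]`, has the valuation of an element of `Eˣ`. -/
theorem exists_pow_val_eq (x : F) (hx : x ≠ 0) :
    ∃ d : ℕ, 1 ≤ d ∧ d ≤ Module.finrank E F ∧ ∃ e : E, e ≠ 0 ∧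
      V.valuation x ^ d = V.valuation (algebraMap E F e) := by
  classical
  have hint : IsIntegral E x := Algebra.IsIntegral.isIntegral x
  set p := minpoly E x with hp
  have hp0 : p ≠ 0 := minpoly.ne_zero hint
  have hdeg : p.natDegree ≤ Module.finrank E F := minpoly.natDegree_le x
  have hroot : Polynomial.aeval x p = 0 := minpoly.aeval E x
  have hsum : ∑ i ∈ p.support, algebraMap E F (p.coeff i) * x ^ i = 0 := by
    rw [← hroot, Polynomial.aeval_def, Polynomial.eval₂_eq_sum, Polynomial.sum_def]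
  have hsupp : p.support.Nonempty := Polynomial.nonempty_support_iff.mpr hp0
  have hterm : ∀ i ∈ p.support, algebraMap E F (p.coeff i) * x ^ i ≠ 0 := by
    intro i hi
    have hc : p.coeff i ≠ 0 := Polynomial.mem_support_iff.mp hi
    exact mul_ne_zero ((_root_.map_ne_zero _).mpr hc) (pow_ne_zero _ hx)
  obtain ⟨i, hi, j, hj, hij, hval⟩ :=
    exists_ne_val_eq_of_sum_eq_zero V p.support _ hsupp hterm hsum
  have hvx : V.valuation x ≠ 0 := (Valuation.ne_zero_iff _).mpr hx
  -- wlog i < j
  have main : ∀ i j : ℕ, i ∈ p.support → j ∈ p.support → i < j →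
      V.valuation (algebraMap E F (p.coeff i) * x ^ i) =
        V.valuation (algebraMap E F (p.coeff j) * x ^ j) →
      ∃ d : ℕ, 1 ≤ d ∧ d ≤ Module.finrank E F ∧ ∃ e : E, e ≠ 0 ∧
        V.valuation x ^ d = V.valuation (algebraMap E F e) := by
    intro i j hi hj hlt hval
    have hci : p.coeff i ≠ 0 := Polynomial.mem_support_iff.mp hi
    have hcj : p.coeff j ≠ 0 := Polynomial.mem_support_iff.mp hj
    have hjdeg : j ≤ p.natDegree := Polynomial.le_natDegree_of_mem_supp j hj
    refine ⟨j - i, by omega, by omega, p.coeff i / p.coeff j, div_ne_zero hci hcj, ?_⟩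
    have hcjv : V.valuation (algebraMap E F (p.coeff j)) ≠ 0 :=
      (Valuation.ne_zero_iff _).mpr ((_root_.map_ne_zero _).mpr hcj)
    have hxi : V.valuation x ^ i ≠ 0 := pow_ne_zero _ hvx
    rw [map_mul, map_mul, map_pow, map_pow] at hval
    rw [map_div₀, map_div₀, eq_div_iff hcjv]
    apply mul_right_cancel₀ hxi
    have hji : j - i + i = j := Nat.sub_add_cancel hlt.le
    calc V.valuation x ^ (j - i) * V.valuation (algebraMap E F (p.coeff j)) * V.valuation x ^ i
        = V.valuation (algebraMap E F (p.coeff j)) * V.valuation x ^ (j - i + i) := by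
          rw [pow_add, mul_comm (V.valuation x ^ (j - i)) (V.valuation (algebraMap E F (p.coeff j))),
            mul_assoc]
      _ = V.valuation (algebraMap E F (p.coeff j)) * V.valuation x ^ j := by rw [hji]
      _ = V.valuation (algebraMap E F (p.coeff i)) * V.valuation x ^ i := hval.symm
  rcases lt_or_gt_of_ne hij with h | h
  · exact main i j hi hj h hval
  · exact main j i hj hi h hval.symm

/-- Common step: if the valuations of `Eˣ` are (inverse) powers of `γ ≤ 1`, then the `n!`-th
powers of the valuations of the nonzero elements of `V` are natural powers of `γ`. -/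
theorem exists_pow_factorial_eq (γ : V.ValueGroup) (hγ : γ ≤ 1)
    (hE : ∀ e : E, e ≠ 0 → ∃ i : ℕ, V.valuation (algebraMap E F e) = γ ^ i ∨
      V.valuation (algebraMap E F e) * γ ^ i = 1)
    (x : F) (hxV : x ∈ V) (hx : x ≠ 0) :
    ∃ k : ℕ, V.valuation x ^ (Module.finrank E F).factorial = γ ^ k := by
  obtain ⟨d, hd1, hdn, e, he, hval⟩ := exists_pow_val_eq (E := E) V x hx
  obtain ⟨q, hq⟩ : d ∣ (Module.finrank E F).factorial := Nat.dvd_factorial (by omega) hdn
  have hx1 : V.valuation x ≤ 1 := (V.valuation_le_one_iff _).mpr hxV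
  have hxd : V.valuation x ^ d ≤ 1 := pow_le_one₀ zero_le hx1
  obtain ⟨i, hi | hi⟩ := hE e he
  · refine ⟨i * q, ?_⟩
    rw [hq, pow_mul, hval, hi, ← pow_mul]
  · refine ⟨0, ?_⟩
    have hγi : γ ^ i ≤ 1 := pow_le_one₀ zero_le hγ
    have he1 : V.valuation (algebraMap E F e) = 1 := by
      rw [← hval] at hi ⊢
      rcases hxd.lt_or_eq with h | h
      · exfalso
        have : V.valuation x ^ d * γ ^ i < 1 := by
          calc V.valuation x ^ d * γ ^ i ≤ V.valuation x ^ d * 1 := by gcongr
            _ = V.valuation x ^ d := mul_one _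
            _ < 1 := h
        rw [hi] at this
        exact lt_irrefl _ this
      · exact h
    rw [hq, pow_mul, hval, he1, one_pow, pow_zero]

end Dep

section Main

variable {E F : Type} [Field E] [Field F] [Algebra E F] [FiniteDimensional E F]
variable (V : ValuationSubring F)

omit [FiniteDimensional E F] in
/-- elements of `E` which are units of `V ∩ E` have valuation one -/
theorem val_eq_one_of_isUnit_comap (y : V.comap (algebraMap E F)) (hy : IsUnit y) :
    V.valuation (algebraMap E F (y : E)) = 1 := by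
  obtain ⟨z, hz⟩ := isUnit_iff_exists_inv.mp hy
  have h1 : V.valuation (algebraMap E F (y : E)) ≤ 1 :=
    (V.valuation_le_one_iff _).mpr (ValuationSubring.mem_comap.mp y.2)
  have h2 : V.valuation (algebraMap E F (z : E)) ≤ 1 :=
    (V.valuation_le_one_iff _).mpr (ValuationSubring.mem_comap.mp z.2)
  have h3 : V.valuation (algebraMap E F (y : E)) * V.valuation (algebraMap E F (z : E)) = 1 := by
    have := congrArg (fun w : V.comap (algebraMap E F) => algebraMap E F (w : E)) hz
    simp only [MulMemClass.coe_mul, map_mul, OneMemClass.coe_one, map_one] at this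
    rw [← map_mul, this, map_one]
  rcases h1.lt_or_eq with h | h
  · exfalso
    have : V.valuation (algebraMap E F (y : E)) * V.valuation (algebraMap E F (z : E)) < 1 := by
      calc V.valuation (algebraMap E F (y : E)) * V.valuation (algebraMap E F (z : E))
          ≤ V.valuation (algebraMap E F (y : E)) * 1 := by gcongr
        _ = V.valuation (algebraMap E F (y : E)) := mul_one _
        _ < 1 := h
    rw [h3] at this
    exact lt_irrefl _ this
  · exact h

/-- **FF.1 (DISC)**. -/
theorem disc : Sq05.DiscStatement := by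
  intro E F _ _ _ _ V hO
  classical
  -- it suffices to describe the valuations of `Eˣ`
  suffices hsuff : ∃ γ : V.ValueGroup, γ ≤ 1 ∧
      ∀ e : E, e ≠ 0 → ∃ i : ℕ, V.valuation (algebraMap E F e) = γ ^ i ∨
        V.valuation (algebraMap E F e) * γ ^ i = 1 by
    obtain ⟨γ, hγ, hE⟩ := hsuff
    exact isPrincipalIdealRing_of_pow_eq V γ hγ _ (Nat.factorial_ne_zero (Module.finrank E F))
      (fun x hxV hx => exists_pow_factorial_eq (E := E) V γ hγ hE x hxV hx)
  -- reduce to elements of `O = V ∩ E`
  suffices hsuff : ∃ γ : V.ValueGroup, γ ≤ 1 ∧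
      ∀ y : V.comap (algebraMap E F), y ≠ 0 → ∃ i : ℕ,
        V.valuation (algebraMap E F (y : E)) = γ ^ i by
    obtain ⟨γ, hγ, hOval⟩ := hsuff
    refine ⟨γ, hγ, fun e he => ?_⟩
    rcases (V.comap (algebraMap E F)).mem_or_inv_mem e with h | h
    · obtain ⟨i, hi⟩ := hOval ⟨e, h⟩ (fun h0 => he (congrArg Subtype.val h0))
      exact ⟨i, Or.inl hi⟩
    · obtain ⟨i, hi⟩ := hOval ⟨e⁻¹, h⟩ (fun h0 => inv_ne_zero he (congrArg Subtype.val h0))
      refine ⟨i, Or.inr ?_⟩
      have hi' : V.valuation (algebraMap E F e⁻¹) = γ ^ i := hi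
      rw [← hi', ← map_mul, ← map_mul, mul_inv_cancel₀ he, map_one, map_one]
  by_cases hfield : IsLocalRing.maximalIdeal (V.comap (algebraMap E F)) = ⊥
  · -- `V ∩ E` is a field
    refine ⟨1, le_rfl, fun y hy => ⟨0, ?_⟩⟩
    rw [pow_zero]
    apply val_eq_one_of_isUnit_comap V y
    by_contra hnu
    have : y ∈ IsLocalRing.maximalIdeal (V.comap (algebraMap E F)) :=
      (IsLocalRing.mem_maximalIdeal y).mpr hnu
    rw [hfield] at this
    exact hy ((Submodule.mem_bot _).mp this)
  · -- `V ∩ E` is a discrete valuation ring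
    have hdvr : IsDiscreteValuationRing (V.comap (algebraMap E F)) := { not_a_field' := hfield }
    obtain ⟨π, hπ⟩ := IsDiscreteValuationRing.exists_irreducible (V.comap (algebraMap E F))
    refine ⟨V.valuation (algebraMap E F (π : E)),
      (V.valuation_le_one_iff _).mpr (ValuationSubring.mem_comap.mp π.2), fun y hy => ?_⟩
    obtain ⟨i, hi⟩ := IsDiscreteValuationRing.associated_pow_irreducible hy hπ
    obtain ⟨w, hw⟩ := hi
    refine ⟨i, ?_⟩
    have hwv := val_eq_one_of_isUnit_comap V (w : V.comap (algebraMap E F)) w.isUnit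
    have := congrArg (fun z : V.comap (algebraMap E F) => V.valuation (algebraMap E F (z : E))) hw
    simp only [MulMemClass.coe_mul, map_mul, SubmonoidClass.coe_pow, map_pow] at this
    rw [hwv, mul_one] at this
    exact this

end Main

end Fermat.Agent.S18.H182
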