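import Fermat.Agent.S18.Sq05.Spec

/-!
# S18 / squad S18/S05, piece FF.2 (EXT) — helper182 (backup owner)

`ext_of_disc : DiscStatement → ExtStatement`.

If `u ∈ F` is transcendental over `K` and `F` is finite over `K(u)`, then `u` has a zero at some
place of `F/K`.  Proof: Chevalley's extension theorem gives a valuation subring `V` of `F`
containing `K[u]` in which `u` is a nonunit; its restriction to `K(u)` is the `u`-adic valuation
ring (every nonzero element of `K(u)` has `V`-valuation an integral power of that of `u`), a DVR;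
by `DiscStatement` the ring `V` is a principal ideal ring, hence a place, and `ord_V u > 0`.
-/

set_option autoImplicit false

noncomputable section

namespace Fermat.Agent.S18.H182

open AlgebraicCurve IntermediateField Polynomial

variable {K F : Type} [Field K] [Field F] [Algebra K F]

/-- Chevalley: a valuation subring containing `K[u]` in which `u` is a nonunit. -/
theorem exists_valuationSubring_of_transcendental (u : F) (hu : Transcendental K u) :
    ∃ V : ValuationSubring F, (∀ a : K, algebraMap K F a ∈ V) ∧ u ∈ V ∧ u ∈ V.nonunits := by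
  set A : Subring F := (Algebra.adjoin K {u}).toSubring with hA
  have huA : u ∈ A := Algebra.subset_adjoin (Set.mem_singleton u)
  set I : Ideal A := Ideal.span {(⟨u, huA⟩ : A)} with hI
  have hItop : I ≠ ⊤ := by
    intro h
    rw [hI, Ideal.span_singleton_eq_top] at h
    obtain ⟨b, hb⟩ := isUnit_iff_exists_inv.mp h
    obtain ⟨f, hf⟩ : ∃ f : K[X], Polynomial.aeval u f = (b : F) := by
      have hbmem : (b : F) ∈ Algebra.adjoin K {u} := b.2
      rw [Algebra.adjoin_singleton_eq_range_aeval] at hbmem
      exact hbmem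
    have hb' : u * (b : F) = 1 := by
      have := congrArg Subtype.val hb
      simpa using this
    have h1 : Polynomial.aeval u (X * f - 1) = 0 := by
      simp [hf, hb']
    have h2 : (X * f - 1 : K[X]) ≠ 0 := by
      intro h0
      have := congrArg (Polynomial.eval 0) h0
      simp at this
    exact hu ⟨X * f - 1, h2, h1⟩
  obtain ⟨V, hAV, hIV⟩ := Ideal.image_subset_nonunits_valuationSubring I hItop
  refine ⟨V, fun a => hAV (Subalgebra.algebraMap_mem _ a), hAV huA, ?_⟩
  exact hIV ⟨⟨u, huA⟩, Ideal.subset_span rfl, rfl⟩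

section Val

variable (V : ValuationSubring F)

/-- nonzero constants have valuation one -/
theorem val_algebraMap (hK : ∀ a : K, algebraMap K F a ∈ V) {a : K} (ha : a ≠ 0) :
    V.valuation (algebraMap K F a) = 1 := by
  have h1 : V.valuation (algebraMap K F a) ≤ 1 := (V.valuation_le_one_iff _).mpr (hK a)
  have h2 : V.valuation (algebraMap K F a⁻¹) ≤ 1 := (V.valuation_le_one_iff _).mpr (hK a⁻¹)
  have h3 : V.valuation (algebraMap K F a) * V.valuation (algebraMap K F a⁻¹) = 1 := by
    rw [← map_mul, ← map_mul, mul_inv_cancel₀ ha, map_one, map_one]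
  rcases h1.lt_or_eq with h | h
  · exfalso
    have : V.valuation (algebraMap K F a) * V.valuation (algebraMap K F a⁻¹) < 1 := by
      calc V.valuation (algebraMap K F a) * V.valuation (algebraMap K F a⁻¹)
          ≤ V.valuation (algebraMap K F a) * 1 := by gcongr
        _ = V.valuation (algebraMap K F a) := mul_one _
        _ < 1 := h
    rw [h3] at this
    exact lt_irrefl _ this
  · exact h

theorem aeval_mem (hK : ∀ a : K, algebraMap K F a ∈ V) {u : F} (huV : u ∈ V) (g : K[X]) :
    Polynomial.aeval u g ∈ V := by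
  rw [Polynomial.aeval_eq_sum_range]
  refine V.toSubring.sum_mem fun i _ => ?_
  rw [Algebra.smul_def]
  exact V.mul_mem _ _ (hK _) (V.toSubring.pow_mem huV i)

/-- polynomials in `u` with nonzero constant term have valuation one -/
theorem val_aeval_of_coeff_zero_ne (hK : ∀ a : K, algebraMap K F a ∈ V) {u : F} (huV : u ∈ V)
    (hnu : u ∈ V.nonunits) {g : K[X]} (hg : g.coeff 0 ≠ 0) :
    V.valuation (Polynomial.aeval u g) = 1 := by
  have hdec : g = Polynomial.C (g.coeff 0) + X * g.divX := by
    conv_lhs => rw [← Polynomial.divX_mul_X_add g]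
    ring
  have hval : Polynomial.aeval u g = algebraMap K F (g.coeff 0) + u * Polynomial.aeval u g.divX := by
    conv_lhs => rw [hdec]
    simp [Polynomial.aeval_C]
  have hu1 : V.valuation u < 1 := (V.mem_nonunits_iff).mp hnu  -- may need adjusting
  have hh : V.valuation (Polynomial.aeval u g.divX) ≤ 1 :=
    (V.valuation_le_one_iff _).mpr (aeval_mem V hK huV _)
  have hlt : V.valuation (u * Polynomial.aeval u g.divX) < 1 := by
    rw [map_mul]
    calc V.valuation u * V.valuation (Polynomial.aeval u g.divX)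
        ≤ V.valuation u * 1 := by gcongr
      _ = V.valuation u := mul_one _
      _ < 1 := hu1
  rw [hval, Valuation.map_add_eq_of_lt_left, val_algebraMap V hK hg]
  rw [val_algebraMap V hK hg]
  exact hlt

/-- a nonzero polynomial in `u` has valuation a power of that of `u` -/
theorem val_aeval_eq_pow (hK : ∀ a : K, algebraMap K F a ∈ V) {u : F} (huV : u ∈ V)
    (hnu : u ∈ V.nonunits) {r : K[X]} (hr : r ≠ 0) :
    ∃ a : ℕ, V.valuation (Polynomial.aeval u r) = V.valuation u ^ a := by
  obtain ⟨q, hq, hnd⟩ := Polynomial.exists_eq_pow_rootMultiplicity_mul_and_not_dvd r hr 0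
  refine ⟨r.rootMultiplicity 0, ?_⟩
  have hq0 : q.coeff 0 ≠ 0 := by
    intro h0
    apply hnd
    rw [map_zero, sub_zero]
    exact Polynomial.X_dvd_iff.mpr h0
  have : Polynomial.aeval u r = u ^ r.rootMultiplicity 0 * Polynomial.aeval u q := by
    conv_lhs => rw [hq]
    simp
  rw [this, map_mul, map_pow, val_aeval_of_coeff_zero_ne V hK huV hnu hq0, mul_one]

theorem val_pos_of_transcendental {u : F} (hu : Transcendental K u) : V.valuation u ≠ 0 := by
  rw [Valuation.ne_zero_iff]
  rintro rfl
  exact hu ⟨X, Polynomial.X_ne_zero, by simp⟩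

/-- every nonzero element of `K(u)` lying in `V` has valuation a natural power of that of `u` -/
theorem val_eq_pow_of_mem (hK : ∀ a : K, algebraMap K F a ∈ V) {u : F}
    (hu : Transcendental K u) (huV : u ∈ V)
    (hnu : u ∈ V.nonunits) {x : F} (hxE : x ∈ K⟮u⟯) (hx0 : x ≠ 0) (hxV : x ∈ V) :
    ∃ m : ℕ, V.valuation x = V.valuation u ^ m := by
  obtain ⟨r, s, hrs⟩ := (IntermediateField.mem_adjoin_simple_iff K x).mp hxE
  have hs0 : Polynomial.aeval u s ≠ 0 := by
    intro h
    rw [hrs, h, div_zero] at hx0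
    exact hx0 rfl
  have hr0 : Polynomial.aeval u r ≠ 0 := by
    intro h
    rw [hrs, h, zero_div] at hx0
    exact hx0 rfl
  have hs : s ≠ 0 := by
    rintro rfl
    exact hs0 (by simp)
  have hr : r ≠ 0 := by
    rintro rfl
    exact hr0 (by simp)
  obtain ⟨a, ha⟩ := val_aeval_eq_pow V hK huV hnu hr
  obtain ⟨b, hb⟩ := val_aeval_eq_pow V hK huV hnu hs
  have hu0 : V.valuation u ≠ 0 := val_pos_of_transcendental V hu
  have hu1 : V.valuation u < 1 := (V.mem_nonunits_iff).mp hnu
  have hx1 : V.valuation x ≤ 1 := (V.valuation_le_one_iff _).mpr hxV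
  have hmul : V.valuation x * V.valuation u ^ b = V.valuation u ^ a := by
    rw [← hb, ← ha, ← map_mul, hrs, div_mul_cancel₀ _ hs0]
  rcases le_or_gt b a with hba | hab
  · refine ⟨a - b, ?_⟩
    have hb0 : V.valuation u ^ b ≠ 0 := pow_ne_zero _ hu0
    apply mul_right_cancel₀ hb0
    rw [hmul, ← pow_add, Nat.sub_add_cancel hba]
  · exfalso
    -- val x * val u ^ (b - a) = 1, impossible
    have ha0 : V.valuation u ^ a ≠ 0 := pow_ne_zero _ hu0
    have h1 : V.valuation x * V.valuation u ^ (b - a) = 1 := by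
      apply mul_right_cancel₀ ha0
      rw [mul_assoc, ← pow_add, Nat.sub_add_cancel hab.le, hmul, one_mul]
    have h2 : V.valuation u ^ (b - a) < 1 := by
      have hpos : b - a ≠ 0 := by omega
      exact pow_lt_one₀ zero_le hu1 hpos
    have h3 : V.valuation x * V.valuation u ^ (b - a) < 1 := by
      calc V.valuation x * V.valuation u ^ (b - a)
          ≤ 1 * V.valuation u ^ (b - a) := by gcongr
        _ = V.valuation u ^ (b - a) := one_mul _
        _ < 1 := h2
    rw [h1] at h3
    exact lt_irrefl _ h3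

end Val

section DVR

variable (V : ValuationSubring F) (u : F)

theorem isUnit_comap_of_val_eq_one (y : V.comap (algebraMap K⟮u⟯ F))
    (hy : V.valuation (algebraMap K⟮u⟯ F (y : K⟮u⟯)) = 1) : IsUnit y := by
  have hy0 : (y : K⟮u⟯) ≠ 0 := by
    intro h
    rw [h, map_zero, map_zero] at hy
    exact zero_ne_one hy
  have hinv : (y : K⟮u⟯)⁻¹ ∈ V.comap (algebraMap K⟮u⟯ F) := by
    rw [ValuationSubring.mem_comap, map_inv₀, ← V.valuation_le_one_iff, map_inv₀, hy, inv_one]
  refine isUnit_iff_exists_inv.mpr ⟨⟨_, hinv⟩, Subtype.ext ?_⟩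
  simp [mul_inv_cancel₀ hy0]

theorem val_lt_one_of_not_isUnit (y : V.comap (algebraMap K⟮u⟯ F)) (hy : ¬ IsUnit y) :
    V.valuation (algebraMap K⟮u⟯ F (y : K⟮u⟯)) < 1 := by
  have h1 : V.valuation (algebraMap K⟮u⟯ F (y : K⟮u⟯)) ≤ 1 :=
    (V.valuation_le_one_iff _).mpr (ValuationSubring.mem_comap.mp y.2)
  rcases h1.lt_or_eq with h | h
  · exact h
  · exact absurd (isUnit_comap_of_val_eq_one V u y h) hy

theorem hasUnitMulPow (hK : ∀ a : K, algebraMap K F a ∈ V) (hu : Transcendental K u)
    (huV : u ∈ V) (hnu : u ∈ V.nonunits) :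
    IsDiscreteValuationRing.HasUnitMulPowIrreducibleFactorization (V.comap (algebraMap K⟮u⟯ F)) := by
  have hgen : algebraMap K⟮u⟯ F (AdjoinSimple.gen K u) = u := AdjoinSimple.algebraMap_gen K u
  have hu0 : V.valuation u ≠ 0 := val_pos_of_transcendental V hu
  have hu1 : V.valuation u < 1 := (V.mem_nonunits_iff).mp hnu
  have hgen0 : (AdjoinSimple.gen K u) ≠ 0 := by
    intro h
    rw [h, map_zero] at hgen
    exact hu0 (by rw [← hgen, map_zero])
  have hpmem : AdjoinSimple.gen K u ∈ V.comap (algebraMap K⟮u⟯ F) := by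
    rw [ValuationSubring.mem_comap, hgen]; exact huV
  -- key: valuation of elements of the comap
  have key : ∀ x : V.comap (algebraMap K⟮u⟯ F), x ≠ 0 →
      ∃ m : ℕ, V.valuation (algebraMap K⟮u⟯ F (x : K⟮u⟯)) = V.valuation u ^ m := by
    intro x hx
    have hxE : algebraMap K⟮u⟯ F (x : K⟮u⟯) ∈ K⟮u⟯ := (x : K⟮u⟯).2
    have hx0 : algebraMap K⟮u⟯ F (x : K⟮u⟯) ≠ 0 := by
      intro h
      apply hx
      apply Subtype.ext
      exact (map_eq_zero (algebraMap K⟮u⟯ F)).mp h
    exact val_eq_pow_of_mem V hK hu huV hnu hxE hx0 (ValuationSubring.mem_comap.mp x.2)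
  refine ⟨⟨AdjoinSimple.gen K u, hpmem⟩, ?_, ?_⟩
  · rw [irreducible_iff]
    constructor
    · intro hunit
      obtain ⟨b, hb⟩ := isUnit_iff_exists_inv.mp hunit
      have hb' : u * algebraMap K⟮u⟯ F (b : K⟮u⟯) = 1 := by
        have := congrArg (fun z : V.comap (algebraMap K⟮u⟯ F) => algebraMap K⟮u⟯ F (z : K⟮u⟯)) hb
        simpa [hgen] using this
      have hbV : V.valuation (algebraMap K⟮u⟯ F (b : K⟮u⟯)) ≤ 1 :=
        (V.valuation_le_one_iff _).mpr (ValuationSubring.mem_comap.mp b.2)
      have : V.valuation (u * algebraMap K⟮u⟯ F (b : K⟮u⟯)) < 1 := by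
        rw [map_mul]
        calc V.valuation u * V.valuation (algebraMap K⟮u⟯ F (b : K⟮u⟯))
            ≤ V.valuation u * 1 := by gcongr
          _ = V.valuation u := mul_one _
          _ < 1 := hu1
      rw [hb', map_one] at this
      exact lt_irrefl _ this
    · intro a b hab
      by_contra hcon
      obtain ⟨ha, hb⟩ := not_or.mp hcon
      have hab' : u = algebraMap K⟮u⟯ F (a : K⟮u⟯) * algebraMap K⟮u⟯ F (b : K⟮u⟯) := by
        have := congrArg (fun z : V.comap (algebraMap K⟮u⟯ F) => algebraMap K⟮u⟯ F (z : K⟮u⟯)) hab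
        simpa [hgen] using this
      have ha0 : a ≠ 0 := by
        rintro rfl
        apply hu0
        rw [hab']
        simp
      have hb0 : b ≠ 0 := by
        rintro rfl
        apply hu0
        rw [hab']
        simp
      have hle : ∀ y : V.comap (algebraMap K⟮u⟯ F), y ≠ 0 → ¬ IsUnit y →
          V.valuation (algebraMap K⟮u⟯ F (y : K⟮u⟯)) ≤ V.valuation u := by
        intro y hy0 hyu
        obtain ⟨m, hm⟩ := key y hy0
        have hlt := val_lt_one_of_not_isUnit V u y hyu
        have hm0 : m ≠ 0 := by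
          rintro rfl
          rw [hm, pow_zero] at hlt
          exact lt_irrefl _ hlt
        rw [hm]
        exact pow_le_of_le_one zero_le hu1.le hm0
      have h1 := hle a ha0 ha
      have h2 := hle b hb0 hb
      have h3 : V.valuation u ≤ V.valuation u * V.valuation u := by
        conv_lhs => rw [hab', map_mul]
        exact mul_le_mul' h1 h2
      have h4 : V.valuation u * V.valuation u < V.valuation u := by
        calc V.valuation u * V.valuation u < V.valuation u * 1 := by
              exact mul_lt_mul_of_pos_left hu1 (zero_lt_iff.mpr hu0)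
          _ = V.valuation u := mul_one _
      exact lt_irrefl _ (lt_of_le_of_lt h3 h4)
  · intro x hx
    obtain ⟨m, hm⟩ := key x hx
    refine ⟨m, ?_⟩
    have hymem : (x : K⟮u⟯) / (AdjoinSimple.gen K u) ^ m ∈ V.comap (algebraMap K⟮u⟯ F) := by
      rw [ValuationSubring.mem_comap, ← V.valuation_le_one_iff, map_div₀, map_div₀, map_pow,
        map_pow, hgen, hm, div_self (pow_ne_zero _ hu0)]
    have hyval : V.valuation (algebraMap K⟮u⟯ F
        ((⟨_, hymem⟩ : V.comap (algebraMap K⟮u⟯ F)) : K⟮u⟯)) = 1 := by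
      show V.valuation (algebraMap K⟮u⟯ F ((x : K⟮u⟯) / (AdjoinSimple.gen K u) ^ m)) = 1
      rw [map_div₀, map_div₀, map_pow, map_pow, hgen, hm, div_self (pow_ne_zero _ hu0)]
    obtain ⟨w, hw⟩ := isUnit_comap_of_val_eq_one V u ⟨_, hymem⟩ hyval
    refine ⟨w, ?_⟩
    rw [hw]
    apply Subtype.ext
    show (AdjoinSimple.gen K u) ^ m * ((x : K⟮u⟯) / (AdjoinSimple.gen K u) ^ m) = x
    field_simp

theorem isPrincipalIdealRing_comap (hK : ∀ a : K, algebraMap K F a ∈ V)
    (hu : Transcendental K u) (huV : u ∈ V) (hnu : u ∈ V.nonunits) :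
    IsPrincipalIdealRing (V.comap (algebraMap K⟮u⟯ F)) := by
  have := IsDiscreteValuationRing.ofHasUnitMulPowIrreducibleFactorization
    (hasUnitMulPow V u hK hu huV hnu)
  infer_instance

end DVR

/-- positivity of `ord` at a nonunit of the valuation ring -/
theorem Place_ord_pos_of_mem_nonunits (v : Place K F) {u : F} (hu0 : u ≠ 0)
    (hnu : u ∈ v.toValuationSubring.nonunits) : 0 < v.ord u := by
  obtain ⟨π, hπ⟩ := IsDiscreteValuationRing.exists_irreducible v.toValuationSubring
  obtain ⟨w, hw⟩ := v.exists_unit_mul_zpow hu0 hπ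
  by_contra hcon
  have hle : v.ord u ≤ 0 := not_lt.mp hcon
  have hπ0 : (π : F) ≠ 0 := by
    simpa [ne_eq, ZeroMemClass.coe_eq_zero] using hπ.ne_zero
  -- u⁻¹ = w⁻¹ * π ^ (-ord u) ∈ V
  have hinv : u⁻¹ ∈ v.toValuationSubring := by
    have h1 : u⁻¹ = (((w⁻¹ : v.toValuationSubringˣ) : v.toValuationSubring) : F) *
        (π : F) ^ (-v.ord u).toNat := by
      have hnat : ((-v.ord u).toNat : ℤ) = -v.ord u := Int.toNat_of_nonneg (by omega)
      have hwF : (((w : v.toValuationSubringˣ) : v.toValuationSubring) : F) *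
          (((w⁻¹ : v.toValuationSubringˣ) : v.toValuationSubring) : F) = 1 := by
        have h := congrArg (Subtype.val : v.toValuationSubring → F) (Units.mul_inv w)
        exact h
      have hw0 : (((w : v.toValuationSubringˣ) : v.toValuationSubring) : F) ≠ 0 :=
        left_ne_zero_of_mul_eq_one hwF
      rw [← zpow_natCast, hnat, zpow_neg]
      conv_lhs => rw [hw]
      rw [mul_inv]
      congr 1
      exact (eq_inv_of_mul_eq_one_right hwF).symm
    rw [h1]
    exact v.toValuationSubring.mul_mem _ _ (SetLike.coe_mem _)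
      (v.toValuationSubring.toSubring.pow_mem (SetLike.coe_mem π) _)
  have hval : v.toValuationSubring.valuation u < 1 :=
    (v.toValuationSubring.mem_nonunits_iff).mp hnu
  have hval' : v.toValuationSubring.valuation u⁻¹ ≤ 1 :=
    (v.toValuationSubring.valuation_le_one_iff _).mpr hinv
  have h1 : v.toValuationSubring.valuation u * v.toValuationSubring.valuation u⁻¹ = 1 := by
    rw [← map_mul, mul_inv_cancel₀ hu0, map_one]
  have h2 : v.toValuationSubring.valuation u * v.toValuationSubring.valuation u⁻¹ < 1 := by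
    calc v.toValuationSubring.valuation u * v.toValuationSubring.valuation u⁻¹
        ≤ v.toValuationSubring.valuation u * 1 := by gcongr
      _ = v.toValuationSubring.valuation u := mul_one _
      _ < 1 := hval
  rw [h1] at h2
  exact lt_irrefl _ h2

/-- **FF.2 (EXT)** from **FF.1 (DISC)**. -/
theorem ext_of_disc (hD : Sq05.DiscStatement) : Sq05.ExtStatement := by
  intro K F _ _ _ u hu hfin
  obtain ⟨V, hK, huV, hnu⟩ := exists_valuationSubring_of_transcendental u hu
  have hO := isPrincipalIdealRing_comap V u hK hu huV hnu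
  have hV : IsPrincipalIdealRing V := hD K⟮u⟯ F V hO
  have hu0 : u ≠ 0 := by
    rintro rfl
    exact hu ⟨X, Polynomial.X_ne_zero, by simp⟩
  have hne : V ≠ ⊤ := by
    rintro rfl
    have h1 : (⊤ : ValuationSubring F).valuation u < 1 :=
      ((⊤ : ValuationSubring F).mem_nonunits_iff).mp hnu
    have h2 : (⊤ : ValuationSubring F).valuation u⁻¹ ≤ 1 :=
      ((⊤ : ValuationSubring F).valuation_le_one_iff _).mpr (ValuationSubring.mem_top _)
    have h3 : (⊤ : ValuationSubring F).valuation u * (⊤ : ValuationSubring F).valuation u⁻¹ = 1 := by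
      rw [← map_mul, mul_inv_cancel₀ hu0, map_one]
    have h4 : (⊤ : ValuationSubring F).valuation u * (⊤ : ValuationSubring F).valuation u⁻¹ < 1 := by
      calc (⊤ : ValuationSubring F).valuation u * (⊤ : ValuationSubring F).valuation u⁻¹
          ≤ (⊤ : ValuationSubring F).valuation u * 1 := by gcongr
        _ = (⊤ : ValuationSubring F).valuation u := mul_one _
        _ < 1 := h1
    rw [h3] at h4
    exact lt_irrefl _ h4
  exact ⟨⟨V, hK, hne, hV⟩, Place_ord_pos_of_mem_nonunits _ hu0 hnu⟩

end Fermat.Agent.S18.H182
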