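import Fermat.Agent.S18.H182.Ext
import Fermat.Agent.S18.H182.Disc

/-!
# S18 / squad S18/S05: FF.2 (EXT), unconditional — helper182

`ext : ExtStatement`, from `ext_of_disc` and `disc`.
-/

set_option autoImplicit false

namespace Fermat.Agent.S18.H182

/-- **FF.2 (EXT)**, unconditional. -/
theorem ext : Sq05.ExtStatement := ext_of_disc disc

end Fermat.Agent.S18.H182
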